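/-
S55 / 33a-DEVISSAGE-ABS (helper9), part (I): the degree-2 inflation–restriction exact sequence
`0 → H²(G ⧸ S, A^S) → H²(G, A) → H²(S, A)` under the hypothesis `H¹(S, A) = 0`,
in the shapes of Mathlib's `groupCohomology.H1InfRes`.  Mathlib only, explicit cocycles.
-/
import Mathlib

set_option autoImplicit false

open CategoryTheory groupCohomology Rep Limits

universe u

namespace Fermat.Agent.S55.InfRes9

variable {k G : Type u} [CommRing k] [Group G]

/-! ### elementary cocycle calculus -/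

section Elem

variable (A : Rep.{u, u, u} k G)

/-- the cocycle identity in the form of `mem_cocycles₂_iff` -/
def IsC2 (c : G × G → A) : Prop :=
  ∀ g h j : G, c (g * h, j) + c (g, h) = A.ρ g (c (h, j)) + c (g, h * j)

/-- the coboundary of a 1-cochain -/
def dd (b : G → A) : G × G → A := fun p => A.ρ p.1 (b p.2) - b (p.1 * p.2) + b p.1

variable {A}

theorem isC2_iff (c : G × G → A) : IsC2 A c ↔ c ∈ cocycles₂ A := (mem_cocycles₂_iff c).symm

theorem dd_eq (b : G → A) : dd A b = (d₁₂ A).hom b := by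
  funext p
  rw [d₁₂_hom_apply]
  rfl

theorem isC2_dd (b : G → A) : IsC2 A (dd A b) := by
  rw [isC2_iff, dd_eq]
  exact d₁₂_apply_mem_cocycles₂ b

theorem IsC2.add {c c' : G × G → A} (h : IsC2 A c) (h' : IsC2 A c') : IsC2 A (c + c') := by
  rw [isC2_iff] at *
  exact add_mem h h'

theorem IsC2.sub {c c' : G × G → A} (h : IsC2 A c) (h' : IsC2 A c') : IsC2 A (c - c') := by
  rw [isC2_iff] at *
  exact sub_mem h h'

theorem mem_coboundaries₂_of_eq_dd {c : G × G → A} (b : G → A) (h : c = dd A b) :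
    c ∈ coboundaries₂ A := by
  rw [h, dd_eq]
  exact ⟨b, rfl⟩

theorem exists_eq_dd_of_mem_coboundaries₂ {c : G × G → A} (h : c ∈ coboundaries₂ A) :
    ∃ b : G → A, c = dd A b := by
  obtain ⟨b, hb⟩ := h
  exact ⟨b, by rw [dd_eq]; exact hb.symm⟩

variable (S : Subgroup G)

/-- Step C: if `c (g, t) = 0` for `t ∈ S` then `c` is right `S`-invariant in the second variable -/
theorem IsC2.snd_mul_right {c : G × G → A} (hc : IsC2 A c)
    (h0 : ∀ g : G, ∀ t ∈ S, c (g, t) = 0) (g h : G) {t : G} (ht : t ∈ S) :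
    c (g, h * t) = c (g, h) := by
  have := hc g h t
  rw [h0 (g * h) t ht, h0 h t ht, map_zero, zero_add, zero_add] at this
  exact this.symm

/-- Step B: right normalisation along coset representatives (no normality needed) -/
theorem IsC2.exists_right_normalised {c : G × G → A} (hc : IsC2 A c)
    (h0 : ∀ s ∈ S, ∀ t ∈ S, c (s, t) = 0) :
    ∃ b : G → A, ∀ g : G, ∀ t ∈ S, (c + dd A b) (g, t) = 0 := by
  classical
  let r : G → G := fun g => Quotient.out (QuotientGroup.mk g : G ⧸ S)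
  have hr : ∀ g, (r g)⁻¹ * g ∈ S := fun g => by
    have h1 : (QuotientGroup.mk (r g) : G ⧸ S) = QuotientGroup.mk g := QuotientGroup.out_eq' _
    exact QuotientGroup.eq.mp h1
  have hrmul : ∀ g, ∀ t ∈ S, r (g * t) = r g := fun g t ht => by
    have : (QuotientGroup.mk (g * t) : G ⧸ S) = QuotientGroup.mk g := by
      rw [QuotientGroup.eq]
      simpa [mul_assoc] using S.inv_mem ht
    show Quotient.out _ = Quotient.out _
    rw [this]
  refine ⟨fun g => c (r g, (r g)⁻¹ * g), fun g t ht => ?_⟩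
  have hrS : ∀ t ∈ S, r t ∈ S := fun t ht => by
    have := hr t
    have h2 : (r t)⁻¹ ∈ S := by
      have := S.mul_mem this (S.inv_mem ht)
      simpa [mul_assoc] using this
    simpa using S.inv_mem h2
  have h1 := hc (r g) ((r g)⁻¹ * g) t
  rw [mul_inv_cancel_left, h0 _ (hr g) t ht, map_zero, zero_add] at h1
  show c (g, t) + dd A _ (g, t) = 0
  simp only [dd]
  rw [hrmul g t ht, h0 _ (hrS t ht) _ (hr t), map_zero, zero_sub, ← mul_assoc, ← h1]
  abel

/-- the hypothesis `H¹(S, A) = 0` in elementary form -/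
def H1Vanishes : Prop :=
  ∀ f : S → A, (∀ s t : S, f (s * t) = A.ρ (s : G) (f t) + f s) →
    ∃ y : A, ∀ s : S, A.ρ (s : G) y - y = f s

variable {S}

/-- Step D: for `S` normal and `c (g, t) = 0` (`t ∈ S`), `s ↦ c (s, h)` is a 1-cocycle of `S`. -/
theorem IsC2.fst_cocycle [S.Normal] {c : G × G → A} (hc : IsC2 A c)
    (h0 : ∀ g : G, ∀ t ∈ S, c (g, t) = 0) (h : G) (s : G) {t : G} (ht : t ∈ S) :
    c (s * t, h) = A.ρ s (c (t, h)) + c (s, h) := by
  have h1 := hc s t h
  rw [h0 s t ht, add_zero] at h1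
  have h2 : t * h = h * (h⁻¹ * t * h) := by group
  rw [h1, h2, hc.snd_mul_right S h0 s h (Subgroup.Normal.conj_mem' ‹_› t ht h)]

/-- Step D': kill `c (s, h)` for `s ∈ S` using `H¹(S, A) = 0`. -/
theorem IsC2.exists_left_normalised [S.Normal] {c : G × G → A} (hc : IsC2 A c)
    (hH1 : H1Vanishes (A := A) S)
    (h0 : ∀ g : G, ∀ t ∈ S, c (g, t) = 0) :
    ∃ b : G → A, (∀ g : G, ∀ t ∈ S, (c - dd A b) (g, t) = 0) ∧
      (∀ s ∈ S, ∀ h : G, (c - dd A b) (s, h) = 0) := by
  classical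
  -- for every `h` a solution `y h`
  have hex : ∀ h : G, ∃ y : A, ∀ s : S, A.ρ (s : G) y - y = c ((s : G), h) := fun h =>
    hH1 (fun s => c ((s : G), h)) fun s t => by
      simpa using hc.fst_cocycle h0 h (s : G) t.2
  choose y hy using hex
  let r : G → G := fun g => Quotient.out (QuotientGroup.mk g : G ⧸ S)
  have hr : ∀ g, (r g)⁻¹ * g ∈ S := fun g => by
    have h1 : (QuotientGroup.mk (r g) : G ⧸ S) = QuotientGroup.mk g := QuotientGroup.out_eq' _
    exact QuotientGroup.eq.mp h1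
  have hrmul : ∀ g, ∀ t ∈ S, r (g * t) = r g := fun g t ht => by
    have : (QuotientGroup.mk (g * t) : G ⧸ S) = QuotientGroup.mk g := by
      rw [QuotientGroup.eq]
      simpa [mul_assoc] using S.inv_mem ht
    show Quotient.out _ = Quotient.out _
    rw [this]
  have hr1 : ∀ t ∈ S, r t = r 1 := fun t ht => by simpa using hrmul 1 t ht
  have hr1S : r 1 ∈ S := by
    have := hr 1
    simpa using S.inv_mem (by simpa using this)
  -- the constant `a₀ = y (r 1)` is `S`-invariant
  have ha0 : ∀ s ∈ S, A.ρ s (y (r 1)) = y (r 1) := fun s hs => by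
    have := hy (r 1) ⟨s, hs⟩
    rw [h0 s (r 1) hr1S] at this
    exact sub_eq_zero.mp this
  let b : G → A := fun g => y (r g) - y (r 1)
  have hbmul : ∀ g, ∀ t ∈ S, b (g * t) = b g := fun g t ht => by
    show y (r (g * t)) - _ = y (r g) - _
    rw [hrmul g t ht]
  have hbS : ∀ t ∈ S, b t = 0 := fun t ht => by
    show y (r t) - y (r 1) = 0
    rw [hr1 t ht, sub_self]
  have hb : ∀ s ∈ S, ∀ h : G, c (s, h) = A.ρ s (b h) - b h := fun s hs h => by
    have h1 : c (s, h) = c (s, r h) := by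
      have : h = r h * ((r h)⁻¹ * h) := by group
      conv_lhs => rw [this]
      exact hc.snd_mul_right S h0 s (r h) (hr h)
    rw [h1, ← hy (r h) ⟨s, hs⟩]
    show _ = A.ρ s (y (r h) - y (r 1)) - (y (r h) - y (r 1))
    rw [map_sub, ha0 s hs]
    abel
  refine ⟨b, fun g t ht => ?_, fun s hs h => ?_⟩
  · show c (g, t) - dd A b (g, t) = 0
    simp only [dd]
    rw [h0 g t ht, hbS t ht, hbmul g t ht, map_zero]
    abel
  · show c (s, h) - dd A b (s, h) = 0
    simp only [dd]
    have h2 : s * h = h * (h⁻¹ * s * h) := by group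
    rw [hb s hs h, hbS s hs, h2, hbmul h _ (Subgroup.Normal.conj_mem' ‹_› s hs h)]
    abel

/-- Step E: a cocycle vanishing on `S × G` and `G × S` is `S`-biinvariant with invariant values. -/
theorem IsC2.biinvariant [S.Normal] {c : G × G → A} (hc : IsC2 A c)
    (h0 : ∀ g : G, ∀ t ∈ S, c (g, t) = 0) (h0' : ∀ s ∈ S, ∀ h : G, c (s, h) = 0) :
    (∀ g h : G, ∀ t ∈ S, c (g, h * t) = c (g, h)) ∧ (∀ g h : G, ∀ t ∈ S, c (g * t, h) = c (g, h)) ∧
      ∀ g h : G, ∀ s ∈ S, A.ρ s (c (g, h)) = c (g, h) := by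
  have hE1 : ∀ g h : G, ∀ t ∈ S, c (g, h * t) = c (g, h) := fun g h t ht =>
    hc.snd_mul_right S h0 g h ht
  have hE2 : ∀ g h : G, ∀ t ∈ S, c (g * t, h) = c (g, h) := fun g h t ht => by
    have h1 := hc g t h
    rw [h0 g t ht, add_zero, h0' t ht h, map_zero, zero_add] at h1
    have h2 : t * h = h * (h⁻¹ * t * h) := by group
    rw [h1, h2, hE1 g h _ (Subgroup.Normal.conj_mem' ‹_› t ht h)]
  refine ⟨hE1, hE2, fun g h s hs => ?_⟩
  have h1 := hc s g h
  rw [h0' s hs g, add_zero, h0' s hs (g * h), add_zero] at h1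
  have h2 : s * g = g * (g⁻¹ * s * g) := by group
  rw [← h1, h2, hE2 g h _ (Subgroup.Normal.conj_mem' ‹_› s hs g)]

end Elem

/-! ### the short complex and the two theorems -/

section Main

variable (A : Rep.{u, u, u} k G) (S : Subgroup G) [S.Normal]

theorem dd_add (b b' : G → A) : dd A (b + b') = dd A b + dd A b' := by
  rw [dd_eq, dd_eq, dd_eq, map_add]

theorem dd_sub (b b' : G → A) : dd A (b - b') = dd A b - dd A b' := by
  rw [dd_eq, dd_eq, dd_eq, map_sub]

/-- `H¹(S, A) = 0` in elementary form, from the categorical statement -/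
theorem h1Vanishes_of_isZero (S : Subgroup G)
    (h1 : IsZero (groupCohomology (res S.subtype A) 1)) : H1Vanishes (A := A) S := by
  intro f hf
  have hmem : f ∈ cocycles₁ (res S.subtype A) := by
    rw [mem_cocycles₁_iff]
    intro g h
    exact hf g h
  have hss := ModuleCat.subsingleton_of_isZero h1
  have h0 : H1π (res S.subtype A) ⟨f, hmem⟩ = 0 := Subsingleton.elim _ _
  rw [H1π_eq_zero_iff] at h0
  obtain ⟨y, hy⟩ := h0
  refine ⟨y, fun s => ?_⟩
  have := congrFun hy s
  simp only [d₀₁_hom_apply] at this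
  exact this

/-- the map induced in degree 2 by the trivial group homomorphism vanishes -/
theorem map₂_one {H : Type u} [Group H] {A : Rep.{u, u, u} k H} {B : Rep.{u, u, u} k G}
    (φ : res (1 : G →* H) A ⟶ B) : map (1 : G →* H) φ 2 = 0 := by
  rw [← cancel_epi (H2π A), H2π_comp_map, comp_zero]
  ext x
  rw [ModuleCat.comp_apply]
  show H2π B _ = 0
  rw [H2π_eq_zero_iff, coe_mapCocycles₂]
  refine ⟨fun _ => φ.hom (x (1, 1)), ?_⟩
  funext p
  rw [d₁₂_hom_apply]
  have hinv : B.ρ p.1 (φ.hom (x (1, 1))) = φ.hom (x (1, 1)) := by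
    have := hom_comm_apply φ p.1 (x (1, 1))
    simpa using this.symm
  rw [hinv]
  simp only [sub_add_cancel]
  rfl

/-- The short complex `H²(G ⧸ S, A^S) ⟶ H²(G, A) ⟶ H²(S, A)`. -/
@[simps X₁ X₂ X₃ f g]
noncomputable def H2InfRes : ShortComplex (ModuleCat k) where
  X₁ := groupCohomology (A.quotientToInvariants S) 2
  X₂ := groupCohomology A 2
  X₃ := groupCohomology (res S.subtype A) 2
  f := map (QuotientGroup.mk' S) (ofHom <| A.ρ.quotientToInvariants_lift S) 2
  g := map S.subtype (𝟙 _) 2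
  zero := by
    rw [← map_comp, Category.comp_id, groupCohomology.congr (QuotientGroup.mk'_comp_subtype S)
      (fun f φ => map f φ 2), map₂_one]

variable {A S}

omit [S.Normal] in
/-- representatives: `(mk g).out = g * t` with `t ∈ S` -/
theorem out_mk_eq (g : G) : ∃ t ∈ S, Quotient.out (QuotientGroup.mk g : G ⧸ S) = g * t := by
  obtain ⟨h, hh⟩ := QuotientGroup.mk_out_eq_mul S g
  exact ⟨h, h.2, hh⟩

/-- a biinvariant cocycle with invariant values descends to `G ⧸ S` -/
theorem exists_descent {c : G × G → A} (hc : IsC2 A c)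
    (hE1 : ∀ g h : G, ∀ t ∈ S, c (g, h * t) = c (g, h))
    (hE2 : ∀ g h : G, ∀ t ∈ S, c (g * t, h) = c (g, h))
    (hE3 : ∀ g h : G, ∀ s ∈ S, A.ρ s (c (g, h)) = c (g, h)) :
    ∃ cbar : cocycles₂ (A.quotientToInvariants S),
      ∀ g h : G, ((cbar (QuotientGroup.mk g, QuotientGroup.mk h) :
        A.quotientToInvariants S) : A) = c (g, h) := by
  let cb : (G ⧸ S) × (G ⧸ S) → A.quotientToInvariants S := fun p =>
    ⟨c (Quotient.out p.1, Quotient.out p.2), fun s => hE3 _ _ s.1 s.2⟩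
  have hout : ∀ g h : G, ((cb (QuotientGroup.mk g, QuotientGroup.mk h) :
      A.quotientToInvariants S) : A) = c (g, h) := fun g h => by
    obtain ⟨t, ht, hgt⟩ := out_mk_eq (S := S) g
    obtain ⟨t', ht', hgt'⟩ := out_mk_eq (S := S) h
    show c (Quotient.out _, Quotient.out _) = _
    rw [hgt, hgt', hE1 _ _ t' ht', hE2 _ _ t ht]
  have hmem : cb ∈ cocycles₂ (A.quotientToInvariants S) := by
    rw [mem_cocycles₂_iff]
    intro x y z
    induction x using QuotientGroup.induction_on with | H g =>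
    induction y using QuotientGroup.induction_on with | H h =>
    induction z using QuotientGroup.induction_on with | H j =>
    apply Subtype.ext
    rw [← QuotientGroup.mk_mul, ← QuotientGroup.mk_mul]
    have hact : (((A.quotientToInvariants S).ρ (QuotientGroup.mk g)
        (cb (QuotientGroup.mk h, QuotientGroup.mk j)) : A.quotientToInvariants S) : A) =
        A.ρ g (cb (QuotientGroup.mk h, QuotientGroup.mk j) : A) := rfl
    show ((cb _ : A.quotientToInvariants S) : A) + ((cb _ : A.quotientToInvariants S) : A) =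
      (((A.quotientToInvariants S).ρ _ (cb _) : A.quotientToInvariants S) : A) +
        ((cb _ : A.quotientToInvariants S) : A)
    rw [hact, hout, hout, hout, hout]
    exact hc g h j
  exact ⟨⟨cb, hmem⟩, hout⟩

variable (A S)

/-- Exactness of `H²(G ⧸ S, A^S) ⟶ H²(G, A) ⟶ H²(S, A)` when `H¹(S, A) = 0`. -/
theorem H2InfRes_exact (h1 : IsZero (groupCohomology (res S.subtype A) 1)) :
    (H2InfRes A S).Exact := by
  classical
  rw [ShortComplex.moduleCat_exact_iff_ker_sub_range]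
  intro x hx
  induction x using H2_induction_on with | @h x =>
  have hx' : (map S.subtype (𝟙 (res S.subtype A)) 2) (H2π A x) = 0 := LinearMap.mem_ker.mp hx
  rw [H2π_comp_map_apply S.subtype, H2π_eq_zero_iff, coe_mapCocycles₂] at hx'
  obtain ⟨b₀, hb₀⟩ := hx'
  have hc : IsC2 A x := (isC2_iff _).2 x.2
  -- Step A
  let b₁ : G → A := fun g => if h : g ∈ S then b₀ ⟨g, h⟩ else 0
  have hc₁ : IsC2 A (⇑x - dd A b₁) := hc.sub (isC2_dd b₁)
  have h0₁ : ∀ s ∈ S, ∀ t ∈ S, (⇑x - dd A b₁) (s, t) = 0 := fun s hs t ht => by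
    have := congrFun hb₀ (⟨s, hs⟩, ⟨t, ht⟩)
    rw [d₁₂_hom_apply] at this
    show x (s, t) - dd A b₁ (s, t) = 0
    simp only [dd, b₁, dif_pos hs, dif_pos ht, dif_pos (S.mul_mem hs ht)]
    rw [sub_eq_zero]
    exact this.symm
  -- Step B
  obtain ⟨b₂, hb₂⟩ := hc₁.exists_right_normalised S h0₁
  have hc₂ : IsC2 A (⇑x - dd A b₁ + dd A b₂) := hc₁.add (isC2_dd b₂)
  -- Step D
  obtain ⟨b₃, hb₃, hb₃'⟩ := hc₂.exists_left_normalised (h1Vanishes_of_isZero A S h1) hb₂
  have hc₃ : IsC2 A (⇑x - dd A b₁ + dd A b₂ - dd A b₃) := hc₂.sub (isC2_dd b₃)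
  -- Step E
  obtain ⟨hE1, hE2, hE3⟩ := hc₃.biinvariant hb₃ hb₃'
  obtain ⟨cbar, hcbar⟩ := exists_descent hc₃ hE1 hE2 hE3
  refine ⟨H2π _ cbar, ?_⟩
  show (map (QuotientGroup.mk' S) (ofHom <| A.ρ.quotientToInvariants_lift S) 2) (H2π _ cbar) = _
  rw [H2π_comp_map_apply (QuotientGroup.mk' S), H2π_eq_iff]
  refine mem_coboundaries₂_of_eq_dd (b₂ - b₁ - b₃) ?_
  rw [dd_sub, dd_sub, coe_mapCocycles₂]
  funext p
  have h2 : (cochainsMap₂ (QuotientGroup.mk' S) (ofHom <| A.ρ.quotientToInvariants_lift S)).hom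
      (⇑cbar) p = (⇑x - dd A b₁ + dd A b₂ - dd A b₃) p := hcbar p.1 p.2
  show _ - x p = _
  rw [h2]
  simp only [Pi.sub_apply, Pi.add_apply]
  abel

theorem dd_d₀₁ (y : A) : dd A (fun g => A.ρ g y - y) = 0 := by
  have h1 : (fun g => A.ρ g y - y) = (d₀₁ A).hom y := by
    funext g
    rw [d₀₁_hom_apply]
  rw [dd_eq, h1]
  exact d₀₁_comp_d₁₂_apply A y

/-- The inflation map `H²(G ⧸ S, A^S) ⟶ H²(G, A)` is a monomorphism when `H¹(S, A) = 0`. -/
theorem H2InfRes_mono (h1 : IsZero (groupCohomology (res S.subtype A) 1)) :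
    Mono (H2InfRes A S).f := by
  classical
  rw [ModuleCat.mono_iff_injective, injective_iff_map_eq_zero]
  intro x hx
  induction x using H2_induction_on with | @h x =>
  have hx' : (map (QuotientGroup.mk' S) (ofHom <| A.ρ.quotientToInvariants_lift S) 2)
      (H2π _ x) = 0 := hx
  rw [H2π_comp_map_apply (QuotientGroup.mk' S), H2π_eq_zero_iff, coe_mapCocycles₂] at hx'
  obtain ⟨b, hb⟩ : ∃ b : G → A, ((cochainsMap₂ (QuotientGroup.mk' S)
      (ofHom <| A.ρ.quotientToInvariants_lift S)).hom ⇑x : G × G → A) = dd A b :=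
    exists_eq_dd_of_mem_coboundaries₂ (A := A) hx'
  -- the inflated cocycle, pointwise
  have hinf : ∀ g h : G, ((x (QuotientGroup.mk g, QuotientGroup.mk h) :
      A.quotientToInvariants S) : A) = dd A b (g, h) := fun g h => (congrFun hb (g, h))
  set a₀ : A := ((x (1, 1) : A.quotientToInvariants S) : A) with ha₀
  have ha₀inv : ∀ s ∈ S, A.ρ s a₀ = a₀ := fun s hs => (x (1, 1)).2 ⟨s, hs⟩
  have hmk1 : ∀ s ∈ S, (QuotientGroup.mk s : G ⧸ S) = 1 := fun s hs =>
    (QuotientGroup.eq_one_iff s).2 hs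
  have hone_fst : ∀ g : G, ((x (1, QuotientGroup.mk g) : A.quotientToInvariants S) : A) = a₀ :=
    fun g => by rw [cocycles₂_map_one_fst x]
  have hone_snd : ∀ g : G, ((x (QuotientGroup.mk g, 1) : A.quotientToInvariants S) : A) =
      A.ρ g a₀ := fun g => by
    rw [cocycles₂_map_one_snd x]
    rfl
  -- Step 1
  have hcoc : ∀ s t : S, (fun s : S => b (s : G) - a₀) (s * t) =
      A.ρ (s : G) ((fun s : S => b (s : G) - a₀) t) + (fun s : S => b (s : G) - a₀) s := by
    intro s t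
    have h2 := hinf s t
    rw [hmk1 s s.2, hmk1 t t.2] at h2
    simp only [dd] at h2
    rw [← ha₀] at h2
    show b ((s : G) * (t : G)) - a₀ = A.ρ (s : G) (b (t : G) - a₀) + (b (s : G) - a₀)
    have h3 : b ((s : G) * (t : G)) = A.ρ (s : G) (b (t : G)) + b (s : G) - a₀ := by
      rw [h2]; abel
    rw [map_sub, ha₀inv s s.2, h3]
    abel
  obtain ⟨y, hy⟩ := h1Vanishes_of_isZero A S h1 (fun s : S => b (s : G) - a₀) hcoc
  -- Step 2
  let b₁ : G → A := fun g => b g - (A.ρ g y - y)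
  have hb₁ : dd A b₁ = dd A b := by
    show dd A (b - fun g => A.ρ g y - y) = _
    rw [dd_sub, dd_d₀₁, sub_zero]
  have hb₁S : ∀ s ∈ S, b₁ s = a₀ := fun s hs => by
    show b s - (A.ρ s y - y) = a₀
    rw [hy ⟨s, hs⟩]
    abel
  have hinf₁ : ∀ g h : G, ((x (QuotientGroup.mk g, QuotientGroup.mk h) :
      A.quotientToInvariants S) : A) = A.ρ g (b₁ h) - b₁ (g * h) + b₁ g := fun g h => by
    rw [hinf, ← hb₁]
    rfl
  -- Step 3
  have hr : ∀ g : G, ∀ s ∈ S, b₁ (g * s) = b₁ g := fun g s hs => by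
    have h2 := hinf₁ g s
    rw [hmk1 s hs, hone_snd, hb₁S s hs] at h2
    have : b₁ (g * s) - b₁ g = 0 := by
      have h3 : A.ρ g a₀ - (A.ρ g a₀ - b₁ (g * s) + b₁ g) = 0 := by rw [← h2, sub_self]
      rw [← h3]; abel
    exact sub_eq_zero.mp this
  have hl : ∀ g : G, ∀ s ∈ S, b₁ (s * g) = A.ρ s (b₁ g) := fun g s hs => by
    have h2 := hinf₁ s g
    rw [hmk1 s hs, hone_fst, hb₁S s hs] at h2
    have : b₁ (s * g) - A.ρ s (b₁ g) = 0 := by
      have h3 : a₀ - (A.ρ s (b₁ g) - b₁ (s * g) + a₀) = 0 := by rw [← h2, sub_self]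
      rw [← h3]; abel
    exact sub_eq_zero.mp this
  have hinv : ∀ g : G, ∀ s ∈ S, A.ρ s (b₁ g) = b₁ g := fun g s hs => by
    have h2 : s * g = g * (g⁻¹ * s * g) := by group
    rw [← hl g s hs, h2, hr g _ (Subgroup.Normal.conj_mem' ‹_› s hs g)]
  -- Step 4
  let bbar : (G ⧸ S) → A.quotientToInvariants S := fun z =>
    ⟨b₁ (Quotient.out z), fun s => hinv _ s.1 s.2⟩
  have hbout : ∀ g : G, ((bbar (QuotientGroup.mk g) : A.quotientToInvariants S) : A) = b₁ g :=
    fun g => by
      obtain ⟨t, ht, hgt⟩ := out_mk_eq (S := S) g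
      show b₁ (Quotient.out _) = _
      rw [hgt, hr g t ht]
  show H2π (A.quotientToInvariants S) x = 0
  rw [H2π_eq_zero_iff]
  refine ⟨bbar, ?_⟩
  funext p
  obtain ⟨z, w⟩ := p
  induction z using QuotientGroup.induction_on with | H g =>
  induction w using QuotientGroup.induction_on with | H h =>
  rw [d₁₂_hom_apply]
  apply Subtype.ext
  have hact : (((A.quotientToInvariants S).ρ (QuotientGroup.mk g)
      (bbar (QuotientGroup.mk h)) : A.quotientToInvariants S) : A) =
      A.ρ g (bbar (QuotientGroup.mk h) : A) := rfl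
  show (((A.quotientToInvariants S).ρ (QuotientGroup.mk g) (bbar (QuotientGroup.mk h)) :
      A.quotientToInvariants S) : A) - ((bbar (QuotientGroup.mk g * QuotientGroup.mk h) :
      A.quotientToInvariants S) : A) + ((bbar (QuotientGroup.mk g) :
      A.quotientToInvariants S) : A) = _
  rw [hact, ← QuotientGroup.mk_mul, hbout, hbout, hbout, hinf₁]

end Main

end Fermat.Agent.S55.InfRes9
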