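/-
S55 / 33a-DEVISSAGE-ABS (helper9), part (II): restriction to a subgroup of finite index `n` kills
only `n`-torsion in `H¹` and `H²` (the substitute for `cor ∘ res = n`), by explicit cocycles:
if `res_S x = 0` then `n • x = 0`.  Mathlib only.
-/
import Fermat.Agent.S55.InfRes9.InfRes2

set_option autoImplicit false
set_option linter.style.haveILetI false

open CategoryTheory groupCohomology Rep Limits

universe u

namespace Fermat.Agent.S55.InfRes9

variable {k G : Type u} [CommRing k] [Group G]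

section Sum

variable {A : Rep.{u, u, u} k G} (S : Subgroup G) [Fintype (G ⧸ S)]

/-- summing a right-`S`-invariant function over coset representatives is translation invariant -/
theorem sum_out_mul {M : Type*} [AddCommMonoid M] (f : G → M)
    (hf : ∀ g : G, ∀ t ∈ S, f (g * t) = f g) (σ : G) :
    ∑ q : G ⧸ S, f (σ * Quotient.out q) = ∑ q : G ⧸ S, f (Quotient.out q) := by
  have h1 : ∀ q : G ⧸ S, f (σ * Quotient.out q) = f (Quotient.out (σ • q : G ⧸ S)) := fun q => by
    have hq : σ • q = QuotientGroup.mk (σ * Quotient.out q) := by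
      conv_lhs => rw [← QuotientGroup.out_eq' q]
      rfl
    obtain ⟨t, ht, hgt⟩ := out_mk_eq (S := S) (σ * Quotient.out q)
    rw [hq, hgt, hf _ t ht]
  simp_rw [h1]
  exact Equiv.sum_comp (MulAction.toPerm σ : Equiv.Perm (G ⧸ S)) fun q => f (Quotient.out q)

end Sum

section Main

variable (A : Rep.{u, u, u} k G) (S : Subgroup G) [S.FiniteIndex]

/-- degree 1: `res_S x = 0 ⇒ [G:S] • x = 0` -/
theorem index_smul_eq_zero_of_res_eq_zero_one (x : H1 A)
    (hx : (map S.subtype (𝟙 (res S.subtype A)) 1) x = 0) : S.index • x = 0 := by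
  classical
  letI : Fintype (G ⧸ S) := Fintype.ofFinite _
  induction x using H1_induction_on with | @h x =>
  rw [H1π_comp_map_apply S.subtype, H1π_eq_zero_iff, coe_mapCocycles₁] at hx
  obtain ⟨y, hy⟩ := hx
  have hyS : ∀ s ∈ S, x s = A.ρ s y - y := fun s hs => by
    have := congrFun hy ⟨s, hs⟩
    rw [d₀₁_hom_apply] at this
    exact this.symm
  have hcoc : ∀ g h : G, x (g * h) = A.ρ g (x h) + x g := (mem_cocycles₁_iff x).1 x.2
  -- the normalised cocycle
  let x' : G → A := fun g => x g - (A.ρ g y - y)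
  have hx'coc : ∀ g h : G, x' (g * h) = A.ρ g (x' h) + x' g := fun g h => by
    show x (g * h) - (A.ρ (g * h) y - y) = A.ρ g (x h - (A.ρ h y - y)) + (x g - (A.ρ g y - y))
    rw [hcoc, map_mul, Module.End.mul_apply, map_sub, map_sub]
    abel
  have hx'S : ∀ s ∈ S, x' s = 0 := fun s hs => by
    show x s - (A.ρ s y - y) = 0
    rw [hyS s hs, sub_self]
  have hx'r : ∀ g : G, ∀ t ∈ S, x' (g * t) = x' g := fun g t ht => by
    rw [hx'coc, hx'S t ht, map_zero, zero_add]
  -- the averaging element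
  let z : A := ∑ q : G ⧸ S, x' (Quotient.out q)
  have hz : ∀ σ : G, A.ρ σ z = z - S.index • x' σ := fun σ => by
    show A.ρ σ (∑ q : G ⧸ S, x' (Quotient.out q)) = _
    rw [map_sum]
    have h1 : ∀ q : G ⧸ S, A.ρ σ (x' (Quotient.out q)) = x' (σ * Quotient.out q) - x' σ :=
      fun q => by rw [hx'coc]; abel
    simp_rw [h1]
    rw [Finset.sum_sub_distrib, sum_out_mul S x' hx'r σ, Finset.sum_const, Finset.card_univ,
      Subgroup.index_eq_card, Nat.card_eq_fintype_card]
  -- conclusion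
  have hgoal : S.index • H1π A x = H1π A (S.index • x) := (map_nsmul _ _ _).symm
  rw [hgoal, H1π_eq_zero_iff]
  refine ⟨S.index • y - z, ?_⟩
  funext σ
  rw [d₀₁_hom_apply, map_sub, map_nsmul, hz σ]
  show _ = S.index • x σ
  have : x σ = x' σ + (A.ρ σ y - y) := by show x σ = x σ - _ + _; abel
  rw [this]
  simp only [smul_add, smul_sub]
  abel

/-- degree 2: `res_S x = 0 ⇒ [G:S] • x = 0` -/
theorem index_smul_eq_zero_of_res_eq_zero_two (x : H2 A)
    (hx : (map S.subtype (𝟙 (res S.subtype A)) 2) x = 0) : S.index • x = 0 := by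
  classical
  letI : Fintype (G ⧸ S) := Fintype.ofFinite _
  induction x using H2_induction_on with | @h x =>
  rw [H2π_comp_map_apply S.subtype, H2π_eq_zero_iff, coe_mapCocycles₂] at hx
  obtain ⟨b₀, hb₀⟩ := hx
  have hc : IsC2 A x := (isC2_iff _).2 x.2
  -- Step A
  let b₁ : G → A := fun g => if h : g ∈ S then b₀ ⟨g, h⟩ else 0
  have hc₁ : IsC2 A (⇑x - dd A b₁) := hc.sub (isC2_dd b₁)
  have h0₁ : ∀ s ∈ S, ∀ t ∈ S, (⇑x - dd A b₁) (s, t) = 0 := fun s hs t ht => by
    have := congrFun hb₀ (⟨s, hs⟩, ⟨t, ht⟩)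
    rw [d₁₂_hom_apply] at this
    show x (s, t) - dd A b₁ (s, t) = 0
    simp only [dd, b₁, dif_pos hs, dif_pos ht, dif_pos (S.mul_mem hs ht)]
    rw [sub_eq_zero]
    exact this.symm
  -- Step B
  obtain ⟨b₂, hb₂⟩ := hc₁.exists_right_normalised S h0₁
  have hc₂ : IsC2 A (⇑x - dd A b₁ + dd A b₂) := hc₁.add (isC2_dd b₂)
  set c₂ : G × G → A := ⇑x - dd A b₁ + dd A b₂ with hc₂def
  -- Step C
  have hr : ∀ g h : G, ∀ t ∈ S, c₂ (g, h * t) = c₂ (g, h) := fun g h t ht =>
    hc₂.snd_mul_right S hb₂ g h ht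
  -- averaging
  let e : G → A := fun g => ∑ q : G ⧸ S, c₂ (g, Quotient.out q)
  have he : S.index • c₂ = dd A e := by
    funext p
    obtain ⟨g, h⟩ := p
    have h1 : ∀ q : G ⧸ S, c₂ (g * h, Quotient.out q) + c₂ (g, h) =
        A.ρ g (c₂ (h, Quotient.out q)) + c₂ (g, h * Quotient.out q) := fun q => hc₂ g h _
    have h2 := Finset.sum_congr (rfl : (Finset.univ : Finset (G ⧸ S)) = Finset.univ)
      fun q _ => h1 q
    rw [Finset.sum_add_distrib, Finset.sum_add_distrib, Finset.sum_const, Finset.card_univ,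
      ← map_sum, sum_out_mul S (fun j => c₂ (g, j)) (fun j t ht => hr g j t ht) h] at h2
    have h3 := eq_sub_of_add_eq' h2
    show S.index • c₂ (g, h) = A.ρ g (e h) - e (g * h) + e g
    show _ = A.ρ g (∑ q : G ⧸ S, c₂ (h, Quotient.out q)) - (∑ q : G ⧸ S, c₂ (g * h, Quotient.out q))
      + ∑ q : G ⧸ S, c₂ (g, Quotient.out q)
    rw [Subgroup.index_eq_card, Nat.card_eq_fintype_card, h3]
    abel
  -- conclusion
  have hgoal : S.index • H2π A x = H2π A (S.index • x) := (map_nsmul _ _ _).symm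
  rw [hgoal, H2π_eq_zero_iff]
  refine mem_coboundaries₂_of_eq_dd (e + S.index • b₁ - S.index • b₂) ?_
  have hdn : ∀ (n : ℕ) (b : G → A), dd A (n • b) = n • dd A b := fun n b => by
    rw [dd_eq, dd_eq, map_nsmul]
  rw [dd_sub, dd_add, hdn, hdn, ← he, hc₂def]
  show S.index • ⇑x = _
  simp only [smul_add, smul_sub]
  abel

end Main

/-! ### corollaries -/

section Cor

variable (A : Rep.{u, u, u} k G)

theorem card_smul_eq_zero_one [Finite G] (x : H1 A) : Nat.card G • x = 0 := by
  have h := index_smul_eq_zero_of_res_eq_zero_one A (⊥ : Subgroup G) x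
    ((ModuleCat.subsingleton_of_isZero
      (isZero_groupCohomology_succ_of_subsingleton (res (⊥ : Subgroup G).subtype A) 0)).elim _ _)
  rwa [Subgroup.index_bot] at h

theorem card_smul_eq_zero_two [Finite G] (x : H2 A) : Nat.card G • x = 0 := by
  have h := index_smul_eq_zero_of_res_eq_zero_two A (⊥ : Subgroup G) x
    ((ModuleCat.subsingleton_of_isZero
      (isZero_groupCohomology_succ_of_subsingleton (res (⊥ : Subgroup G).subtype A) 1)).elim _ _)
  rwa [Subgroup.index_bot] at h

/-- an element killed by two coprime integers is zero -/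
theorem eq_zero_of_coprime_nsmul {M : Type*} [AddCommGroup M] (x : M) {a b : ℕ}
    (hab : Nat.Coprime a b) (ha : a • x = 0) (hb : b • x = 0) : x = 0 := by
  have h1 : addOrderOf x ∣ a := addOrderOf_dvd_of_nsmul_eq_zero ha
  have h2 : addOrderOf x ∣ b := addOrderOf_dvd_of_nsmul_eq_zero hb
  have h3 : addOrderOf x ∣ 1 := by
    have := Nat.dvd_gcd h1 h2
    rwa [hab.gcd_eq_one] at this
  exact AddMonoid.addOrderOf_eq_one_iff.mp (Nat.dvd_one.mp h3)

variable (S : Subgroup G) [S.FiniteIndex]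

/-- `p`-primary classes restrict injectively to a subgroup of index prime to `p` (degree 1) -/
theorem eq_zero_of_res_eq_zero_one {p : ℕ} (hp : p.Prime) (hS : ¬ p ∣ S.index) (x : H1 A) (n : ℕ)
    (hpx : p ^ n • x = 0) (hx : (map S.subtype (𝟙 (res S.subtype A)) 1) x = 0) : x = 0 :=
  eq_zero_of_coprime_nsmul x (Nat.Coprime.pow_left n ((Nat.Prime.coprime_iff_not_dvd hp).2 hS))
    hpx (index_smul_eq_zero_of_res_eq_zero_one A S x hx)

/-- `p`-primary classes restrict injectively to a subgroup of index prime to `p` (degree 2) -/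
theorem eq_zero_of_res_eq_zero_two {p : ℕ} (hp : p.Prime) (hS : ¬ p ∣ S.index) (x : H2 A) (n : ℕ)
    (hpx : p ^ n • x = 0) (hx : (map S.subtype (𝟙 (res S.subtype A)) 2) x = 0) : x = 0 :=
  eq_zero_of_coprime_nsmul x (Nat.Coprime.pow_left n ((Nat.Prime.coprime_iff_not_dvd hp).2 hS))
    hpx (index_smul_eq_zero_of_res_eq_zero_two A S x hx)

end Cor

end Fermat.Agent.S55.InfRes9
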