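/-
S55 / 33a-DEVISSAGE-ABS (helper9), part (III): the abstract dévissage of class field theory.
For a class `P` of pairs (finite group, module) closed under restriction to subgroups and under
passage to `(G ⧸ S, A^S)`: if `H¹ = 0` and `|H²| ∣ p` on all members of order `p`, then
`H¹ = 0` and `|H²| ∣ |G|` on all members which are `p`-groups, and for arbitrary finite members the
`p`-primary part of `H¹` vanishes and the `p`-primary part of `H²` has order dividing `|G|_p`.
Mathlib only (uses `InfRes2` and `ResKill`).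
-/
import Fermat.Agent.S55.InfRes9.ResKill

set_option autoImplicit false
set_option linter.style.haveILetI false

open CategoryTheory groupCohomology Rep Limits

universe u

namespace Fermat.Agent.S55.InfRes9

variable {k : Type u} [CommRing k]

/-! ### counting along the inflation–restriction sequences -/

section Count

/-- for `f` injective and `ker g = range f`: `|X₂| ∣ |X₁| * |X₃|` (no finiteness needed) -/
theorem card_dvd_of_exact {X₁ X₂ X₃ : Type*} [AddCommGroup X₁] [AddCommGroup X₂] [AddCommGroup X₃]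
    (f : X₁ →+ X₂) (g : X₂ →+ X₃) (hf : Function.Injective f) (hfg : g.ker = f.range) :
    Nat.card X₂ ∣ Nat.card X₁ * Nat.card X₃ := by
  have h1 : Nat.card X₂ = Nat.card (X₂ ⧸ g.ker) * Nat.card g.ker :=
    AddSubgroup.card_eq_card_quotient_mul_card_addSubgroup _
  have h2 : Nat.card (X₂ ⧸ g.ker) = Nat.card g.range :=
    Nat.card_congr (QuotientAddGroup.quotientKerEquivRange g).toEquiv
  have h3 : Nat.card g.ker = Nat.card X₁ := by
    rw [hfg]
    exact (Nat.card_congr (AddMonoidHom.ofInjective hf).toEquiv).symm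
  rw [h1, h2, h3, mul_comm]
  exact Nat.mul_dvd_mul_left _ (AddSubgroup.card_addSubgroup_dvd_card _)

variable {G : Type u} [Group G] (A : Rep.{u, u, u} k G) (S : Subgroup G) [S.Normal]

/-- `H¹(G, A) = 0` from the two ends of inflation–restriction -/
theorem isZero_H1_of_infRes (h₁ : IsZero (groupCohomology (A.quotientToInvariants S) 1))
    (h₃ : IsZero (groupCohomology (res S.subtype A) 1)) : IsZero (groupCohomology A 1) := by
  rw [ModuleCat.isZero_iff_subsingleton]
  have hs₁ := ModuleCat.subsingleton_of_isZero h₁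
  have hs₃ := ModuleCat.subsingleton_of_isZero h₃
  refine ⟨fun x y => ?_⟩
  have hex := (ShortComplex.moduleCat_exact_iff_ker_sub_range _).1 (H1InfRes_exact A S)
  have key : ∀ z : (H1InfRes A S).X₂, z = 0 := fun z => by
    have hz : z ∈ LinearMap.ker (H1InfRes A S).g.hom :=
      LinearMap.mem_ker.mpr (Subsingleton.elim (α := groupCohomology (res S.subtype A) 1) _ _)
    obtain ⟨w, hw⟩ := hex hz
    have hw0 : w = 0 := Subsingleton.elim (α := groupCohomology (A.quotientToInvariants S) 1) _ _
    rw [← hw, hw0]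
    exact map_zero _
  exact (key x).trans (key y).symm

/-- `|H²(G, A)| ∣ |H²(G ⧸ S, A^S)| * |H²(S, A)|` when `H¹(S, A) = 0` -/
theorem card_H2_dvd (h1 : IsZero (groupCohomology (res S.subtype A) 1)) :
    Nat.card (groupCohomology A 2) ∣
      Nat.card (groupCohomology (A.quotientToInvariants S) 2) *
        Nat.card (groupCohomology (res S.subtype A) 2) := by
  have hmono := (ModuleCat.mono_iff_injective _).1 (H2InfRes_mono A S h1)
  have hex := (H2InfRes_exact A S h1)
  rw [ShortComplex.moduleCat_exact_iff_range_eq_ker] at hex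
  refine card_dvd_of_exact (X₁ := groupCohomology (A.quotientToInvariants S) 2)
    (X₂ := groupCohomology A 2) (X₃ := groupCohomology (res S.subtype A) 2)
    (H2InfRes A S).f.hom.toAddMonoidHom (H2InfRes A S).g.hom.toAddMonoidHom hmono ?_
  ext z
  have := congrArg (fun T : Submodule k (groupCohomology A 2) => z ∈ T) hex
  simp only [eq_iff_iff] at this
  exact this.symm

end Count

/-! ### the class of pairs and the dévissage -/

/-- a class of (group, module) pairs closed under restriction and under `(G ⧸ S, A^S)` -/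
structure Closed (P : ∀ (G : Type u) [Group G], Rep.{u, u, u} k G → Prop) : Prop where
  res : ∀ (G : Type u) [Group G] (A : Rep.{u, u, u} k G), P G A →
    ∀ H : Subgroup G, P H (res H.subtype A)
  quot : ∀ (G : Type u) [Group G] (A : Rep.{u, u, u} k G), P G A →
    ∀ (S : Subgroup G) [S.Normal], P (G ⧸ S) (A.quotientToInvariants S)

section PGroup

variable {P : ∀ (G : Type u) [Group G], Rep.{u, u, u} k G → Prop}

theorem normal_of_le_center {G : Type u} [Group G] (H : Subgroup G)
    (h : H ≤ Subgroup.center G) : H.Normal :=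
  ⟨fun n hn g => by
    have := Subgroup.mem_center_iff.mp (h hn) g
    rw [this, mul_inv_cancel_right]
    exact hn⟩

/-- a group of order `p ^ (n + 1)` has a central (hence normal) subgroup of order `p` -/
theorem exists_central_subgroup (p : ℕ) [Fact p.Prime] {G : Type u} [Group G] {n : ℕ}
    (hG : Nat.card G = p ^ (n + 1)) :
    ∃ Z : Subgroup G, Z.Normal ∧ Nat.card Z = p ∧ Nat.card (G ⧸ Z) = p ^ n := by
  have hfin : Finite G := Nat.finite_of_card_ne_zero (by
    rw [hG]; exact pow_ne_zero _ (Fact.out : p.Prime).ne_zero)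
  obtain ⟨m, hm, hcard⟩ := IsPGroup.card_center_eq_prime_pow hG (Nat.succ_pos n)
  have hdvd : p ∣ Nat.card (Subgroup.center G) := by
    rw [hcard]; exact dvd_pow_self p hm.ne'
  obtain ⟨x, hx⟩ := exists_prime_orderOf_dvd_card' p hdvd
  have hz : orderOf (x : G) = p := by rw [Subgroup.orderOf_coe]; exact hx
  refine ⟨Subgroup.zpowers (x : G), normal_of_le_center _ ?_, ?_, ?_⟩
  · rw [Subgroup.zpowers_le]; exact x.2
  · rw [Nat.card_zpowers, hz]
  · have h1 := Subgroup.card_eq_card_quotient_mul_card_subgroup (Subgroup.zpowers (x : G))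
    rw [Nat.card_zpowers, hz, hG, pow_succ] at h1
    exact (Nat.eq_of_mul_eq_mul_right (Fact.out : p.Prime).pos h1).symm

/-- **dévissage for `p`-groups** -/
theorem devissage_pow (p : ℕ) [Fact p.Prime] (hP : Closed P)
    (hprime : ∀ (G : Type u) [Group G] (A : Rep.{u, u, u} k G), P G A → Nat.card G = p →
      IsZero (groupCohomology A 1) ∧ Nat.card (groupCohomology A 2) ∣ p) :
    ∀ (n : ℕ) (G : Type u) [Group G] (A : Rep.{u, u, u} k G), P G A → Nat.card G = p ^ n →
      IsZero (groupCohomology A 1) ∧ Nat.card (groupCohomology A 2) ∣ p ^ n := by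
  intro n
  induction n with
  | zero =>
    intro G _ A _ hG
    rw [pow_zero, Nat.card_eq_one_iff_unique] at hG
    haveI := hG.1
    refine ⟨isZero_groupCohomology_succ_of_subsingleton A 0, ?_⟩
    haveI := ModuleCat.subsingleton_of_isZero (isZero_groupCohomology_succ_of_subsingleton A 1)
    rw [pow_zero, Nat.card_unique]
  | succ n ih =>
    intro G _ A hGA hG
    obtain ⟨Z, hZn, hZ, hGZ⟩ := exists_central_subgroup p hG
    haveI := hZn
    obtain ⟨h1Z, h2Z⟩ := hprime Z (res Z.subtype A) (hP.res G A hGA Z) hZ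
    obtain ⟨h1Q, h2Q⟩ := ih (G ⧸ Z) (A.quotientToInvariants Z) (hP.quot G A hGA Z) hGZ
    refine ⟨isZero_H1_of_infRes A Z h1Q h1Z, ?_⟩
    refine (card_H2_dvd A Z h1Z).trans ?_
    rw [pow_succ]
    exact Nat.mul_dvd_mul h2Q h2Z

theorem devissage_pGroup (p : ℕ) [Fact p.Prime] (hP : Closed P)
    (hprime : ∀ (G : Type u) [Group G] (A : Rep.{u, u, u} k G), P G A → Nat.card G = p →
      IsZero (groupCohomology A 1) ∧ Nat.card (groupCohomology A 2) ∣ p)
    (G : Type u) [Group G] [Finite G] (A : Rep.{u, u, u} k G) (hGA : P G A) (hG : IsPGroup p G) :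
    IsZero (groupCohomology A 1) ∧ Nat.card (groupCohomology A 2) ∣ Nat.card G := by
  obtain ⟨n, hn⟩ := IsPGroup.iff_card.mp hG
  rw [hn]
  exact devissage_pow p hP hprime n G A hGA hn

end PGroup

/-! ### the `p`-part for arbitrary finite groups (Sylow) -/

section PPart

/-- the `p`-primary part of an abelian group -/
def pPrimary (p : ℕ) (M : Type*) [AddCommGroup M] : AddSubgroup M where
  carrier := {x | ∃ n : ℕ, p ^ n • x = 0}
  zero_mem' := ⟨0, by simp⟩
  add_mem' := by
    rintro a b ⟨n, hn⟩ ⟨m, hm⟩
    refine ⟨n + m, ?_⟩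
    have h1 : p ^ (n + m) • a = 0 := by rw [pow_add, mul_comm, mul_smul, hn, smul_zero]
    have h2 : p ^ (n + m) • b = 0 := by rw [pow_add, mul_smul, hm, smul_zero]
    rw [smul_add, h1, h2, add_zero]
  neg_mem' := by
    rintro a ⟨n, hn⟩
    exact ⟨n, by rw [smul_neg, hn, neg_zero]⟩

theorem mem_pPrimary {p : ℕ} {M : Type*} [AddCommGroup M] {x : M} :
    x ∈ pPrimary p M ↔ ∃ n : ℕ, p ^ n • x = 0 := Iff.rfl

variable {P : ∀ (G : Type u) [Group G], Rep.{u, u, u} k G → Prop}

/-- **dévissage, `p`-part**: for an arbitrary finite member `(G, A)` of the class, the `p`-primary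
part of `H¹(G, A)` vanishes and the `p`-primary part of `H²(G, A)` has order dividing `|G|_p`. -/
theorem devissage_pPart (p : ℕ) [Fact p.Prime] (hP : Closed P)
    (hprime : ∀ (G : Type u) [Group G] (A : Rep.{u, u, u} k G), P G A → Nat.card G = p →
      IsZero (groupCohomology A 1) ∧ Nat.card (groupCohomology A 2) ∣ p)
    (G : Type u) [Group G] [Finite G] (A : Rep.{u, u, u} k G) (hGA : P G A) :
    (∀ x : groupCohomology A 1, (∃ n : ℕ, p ^ n • x = 0) → x = 0) ∧
      Nat.card (pPrimary p (groupCohomology A 2)) ∣ p ^ (Nat.card G).factorization p := by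
  classical
  let Q : Sylow p G := default
  have hQcard : Nat.card (Q : Subgroup G) = p ^ (Nat.card G).factorization p :=
    Sylow.card_eq_multiplicity Q
  have hQidx : ¬ p ∣ (Q : Subgroup G).index := Sylow.not_dvd_index Q
  obtain ⟨h1Q, h2Q⟩ := devissage_pow p hP hprime _ (Q : Subgroup G)
    (res (Q : Subgroup G).subtype A) (hP.res G A hGA Q) hQcard
  have hs1 := ModuleCat.subsingleton_of_isZero h1Q
  refine ⟨fun x ⟨n, hn⟩ => ?_, ?_⟩
  · exact eq_zero_of_res_eq_zero_one A (Q : Subgroup G) (Fact.out : p.Prime) hQidx x n hn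
      (Subsingleton.elim _ _)
  · refine Dvd.dvd.trans ?_ h2Q
    let f : pPrimary p (groupCohomology A 2) →+
        groupCohomology (res (Q : Subgroup G).subtype A) 2 :=
      (map (Q : Subgroup G).subtype (𝟙 (res (Q : Subgroup G).subtype A)) 2).hom.toAddMonoidHom.comp
        (pPrimary p (groupCohomology A 2)).subtype
    refine AddSubgroup.card_dvd_of_injective f ?_
    rw [injective_iff_map_eq_zero]
    rintro ⟨x, n, hn⟩ hx
    apply Subtype.ext
    exact eq_zero_of_res_eq_zero_two A (Q : Subgroup G) (Fact.out : p.Prime) hQidx x n hn hx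

end PPart

end Fermat.Agent.S55.InfRes9
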