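/-
S55 / 33a-DEVISSAGE-ABS (helper9), part (IV): the all-primes form of the dévissage:
`H¹(G, A) = 0` and `|H²(G, A)| ∣ |G|` for every finite member of a closed class whose members of
prime order satisfy this.  Uses the primary decomposition of an `N`-torsion abelian group (proved
here by counting only).  Mathlib only.
-/
import Fermat.Agent.S55.InfRes9.Devissage

set_option autoImplicit false
set_option linter.style.haveILetI false

open CategoryTheory groupCohomology Rep Limits

universe u v

namespace Fermat.Agent.S55.InfRes9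

/-! ### counting an `N`-torsion abelian group through its primary parts -/

section Primary

/-- the `n`-torsion subgroup -/
abbrev tors (n : ℕ) (M : Type v) [AddCommGroup M] : AddSubgroup M := (nsmulAddMonoidHom n : M →+ M).ker

theorem mem_tors {n : ℕ} {M : Type v} [AddCommGroup M] {x : M} : x ∈ tors n M ↔ n • x = 0 := Iff.rfl

/-- for coprime `a`, `b` and `M` killed by `a * b`: `|M| = |M[a]| * |M[b]|` -/
theorem card_eq_mul_of_coprime {a b : ℕ} (hab : Nat.Coprime a b) (M : Type v) [AddCommGroup M]
    (hM : ∀ x : M, (a * b) • x = 0) : Nat.card M = Nat.card (tors a M) * Nat.card (tors b M) := by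
  let f : M →+ M := nsmulAddMonoidHom b
  have hrange : f.range = tors a M := by
    ext x
    constructor
    · rintro ⟨y, rfl⟩
      show a • (b • y) = 0
      rw [← mul_smul]; exact hM y
    · intro hx
      have hx' : a • x = 0 := hx
      obtain ⟨u, w, huw⟩ := hab.isCoprime
      refine ⟨w • x, ?_⟩
      show b • (w • x) = x
      have h1 : x = (u * (a : ℤ) + w * (b : ℤ)) • x := by rw [huw, one_smul]
      have h2 : (u * (a : ℤ)) • x = 0 := by
        rw [mul_smul, natCast_zsmul, hx', smul_zero]
      rw [add_smul, h2, zero_add, mul_comm, mul_smul, natCast_zsmul] at h1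
      exact h1.symm
  have h1 : Nat.card M = Nat.card (M ⧸ f.ker) * Nat.card f.ker :=
    AddSubgroup.card_eq_card_quotient_mul_card_addSubgroup _
  have h2 : Nat.card (M ⧸ f.ker) = Nat.card f.range :=
    Nat.card_congr (QuotientAddGroup.quotientKerEquivRange f).toEquiv
  rw [h1, h2, hrange]

variable {M : Type v} [AddCommGroup M]

/-- the torsion subgroup `M[n]` is killed by `n` -/
theorem tors_smul (n : ℕ) (x : tors n M) : n • x = 0 := Subtype.ext (by
  have h : n • (x : M) = 0 := x.2
  rw [AddSubgroup.coe_nsmul, h]
  rfl)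

/-- the `p`-primary part of a subgroup embeds in the `p`-primary part of the group -/
theorem card_pPrimary_subgroup_dvd (p : ℕ) (H : AddSubgroup M) :
    Nat.card (pPrimary p H) ∣ Nat.card (pPrimary p M) := by
  let f : pPrimary p H →+ pPrimary p M :=
    { toFun := fun x => ⟨(x.1 : M), by
        obtain ⟨n, hn⟩ := x.2
        exact ⟨n, by simpa using congrArg (Subtype.val) hn⟩⟩
      map_zero' := rfl
      map_add' := fun _ _ => rfl }
  refine AddSubgroup.card_dvd_of_injective f ?_
  intro x y hxy
  apply Subtype.ext
  apply Subtype.ext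
  exact congrArg (fun z : pPrimary p M => (z : M)) hxy

/-- **counting lemma**: an abelian group killed by `N > 0` all of whose `p`-primary parts have order
dividing `p ^ v_p(N)` has order dividing `N`. -/
theorem card_dvd_of_pPrimary (N : ℕ) :
    ∀ (M : Type v) [AddCommGroup M], (∀ x : M, N • x = 0) →
      (∀ p : ℕ, p.Prime → Nat.card (pPrimary p M) ∣ p ^ N.factorization p) → Nat.card M ∣ N := by
  induction N using Nat.recOnPosPrimePosCoprime with
  | zero => intro M _ _ _; exact dvd_zero _
  | one =>
    intro M _ hM _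
    have : Subsingleton M := ⟨fun x y => by
      have hx := hM x; have hy := hM y
      rw [one_smul] at hx hy
      rw [hx, hy]⟩
    rw [Nat.card_unique]
  | prime_pow p n hp hn =>
    intro M _ hM hprim
    have htop : pPrimary p M = ⊤ := by
      ext x
      simp only [AddSubgroup.mem_top, iff_true]
      exact ⟨n, hM x⟩
    have h1 := hprim p hp
    rw [htop, hp.factorization_pow, Finsupp.single_eq_same] at h1
    rwa [Nat.card_congr (AddSubgroup.topEquiv (G := M)).toEquiv] at h1
  | coprime a b ha hb hab iha ihb =>
    intro M _ hM hprim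
    rw [card_eq_mul_of_coprime hab M hM]
    have key : ∀ (c d : ℕ), 1 < c → Nat.Coprime c d → (∀ x : M, (c * d) • x = 0) →
        (∀ p : ℕ, p.Prime → Nat.card (pPrimary p M) ∣ p ^ (c * d).factorization p) →
        ∀ p : ℕ, p.Prime → Nat.card (pPrimary p (tors c M)) ∣ p ^ c.factorization p := by
      intro c d _ hcd _ hprim' p hp
      by_cases hpc : p ∣ c
      · have hpd : ¬ p ∣ d := fun h => by
          have := Nat.dvd_gcd hpc h
          rw [hcd.gcd_eq_one] at this
          exact hp.one_lt.ne' (Nat.dvd_one.mp this)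
        have h1 := hprim' p hp
        rw [Nat.factorization_mul_apply_of_coprime hcd, Nat.factorization_eq_zero_of_not_dvd hpd,
          add_zero] at h1
        exact (card_pPrimary_subgroup_dvd p (tors c M)).trans h1
      · rw [Nat.factorization_eq_zero_of_not_dvd hpc, pow_zero, Nat.dvd_one,
          Nat.card_eq_one_iff_unique]
        refine ⟨⟨fun x y => ?_⟩, ⟨0⟩⟩
        have hz : ∀ z : pPrimary p (tors c M), z = 0 := fun z => by
          obtain ⟨n, hn⟩ := z.2
          apply Subtype.ext
          exact eq_zero_of_coprime_nsmul (z.1 : tors c M)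
            (Nat.Coprime.pow_left n ((Nat.Prime.coprime_iff_not_dvd hp).2 hpc)) hn
            (tors_smul c z.1)
        rw [hz x, hz y]
    refine Nat.mul_dvd_mul (iha (tors a M) (tors_smul a) (key a b ha hab hM hprim))
      (ihb (tors b M) (tors_smul b) (key b a hb hab.symm (fun x => by rw [mul_comm]; exact hM x)
        (fun p hp => by rw [mul_comm]; exact hprim p hp)))

end Primary

/-- an abelian group killed by `N > 0` whose primary parts all vanish is trivial -/
theorem eq_zero_of_pPrimary_trivial {M : Type v} [AddCommGroup M] (N : ℕ) (hN : 0 < N)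
    (hM : ∀ x : M, N • x = 0)
    (h : ∀ p : ℕ, p.Prime → ∀ x : M, (∃ n : ℕ, p ^ n • x = 0) → x = 0) (x : M) : x = 0 := by
  by_contra hx
  have hdvd : addOrderOf x ∣ N := addOrderOf_dvd_of_nsmul_eq_zero (hM x)
  have hpos : 0 < addOrderOf x := Nat.pos_of_dvd_of_pos hdvd hN
  have hne1 : addOrderOf x ≠ 1 := fun h1 => hx (AddMonoid.addOrderOf_eq_one_iff.mp h1)
  obtain ⟨p, hp, hpd⟩ := Nat.exists_prime_and_dvd hne1
  obtain ⟨m, hm⟩ := hpd
  have hy : (m • x) = 0 := by
    apply h p hp
    refine ⟨1, ?_⟩
    rw [pow_one, ← mul_smul, ← hm]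
    exact addOrderOf_nsmul_eq_zero x
  have h2 : addOrderOf x ∣ m := addOrderOf_dvd_of_nsmul_eq_zero hy
  rw [hm] at h2 hpos
  have hmpos : 0 < m := Nat.pos_of_mul_pos_left hpos |> fun h => by
    rcases Nat.eq_zero_or_pos m with h0 | h0
    · rw [h0, mul_zero] at hpos; exact absurd hpos (lt_irrefl 0)
    · exact h0
  have h3 := Nat.le_of_dvd hmpos h2
  have h4 : 2 * m ≤ p * m := Nat.mul_le_mul_right m hp.two_le
  omega

/-! ### the all-primes dévissage -/

section Full

variable {k : Type u} [CommRing k]
variable {P : ∀ (G : Type u) [Group G], Rep.{u, u, u} k G → Prop}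

/-- **dévissage, all primes**: if every member of prime order of a closed class has `H¹ = 0` and
`|H²| ∣ p`, then every finite member has `H¹ = 0` and `|H²| ∣ |G|`. -/
theorem devissage (hP : Closed P)
    (hprime : ∀ (p : ℕ), p.Prime → ∀ (G : Type u) [Group G] (A : Rep.{u, u, u} k G), P G A →
      Nat.card G = p → IsZero (groupCohomology A 1) ∧ Nat.card (groupCohomology A 2) ∣ p)
    (G : Type u) [Group G] [Finite G] (A : Rep.{u, u, u} k G) (hGA : P G A) :
    IsZero (groupCohomology A 1) ∧ Nat.card (groupCohomology A 2) ∣ Nat.card G := by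
  have hN : 0 < Nat.card G := Nat.card_pos
  have hpart : ∀ p : ℕ, p.Prime →
      (∀ x : groupCohomology A 1, (∃ n : ℕ, p ^ n • x = 0) → x = 0) ∧
        Nat.card (pPrimary p (groupCohomology A 2)) ∣ p ^ (Nat.card G).factorization p :=
    fun p hp => by
      haveI : Fact p.Prime := ⟨hp⟩
      exact devissage_pPart p hP (hprime p hp) G A hGA
  refine ⟨?_, ?_⟩
  · rw [ModuleCat.isZero_iff_subsingleton]
    refine ⟨fun x y => ?_⟩
    have key := eq_zero_of_pPrimary_trivial (M := groupCohomology A 1) (Nat.card G) hN
      (card_smul_eq_zero_one A) (fun p hp => (hpart p hp).1)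
    rw [key x, key y]
  · exact card_dvd_of_pPrimary (Nat.card G) (groupCohomology A 2) (card_smul_eq_zero_two A)
      (fun p hp => (hpart p hp).2)

end Full

end Fermat.Agent.S55.InfRes9
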